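import Fermat.Agent.AdditiveSums.Weights
import Fermat.Agent.Kloosterman.Weil
import Mathlib.Algebra.CharP.Lemmas

/-!
# Bombieri's bound on `y ^ p - y = h x`

For `q = R ^ 2`, `R = p ^ e`, at most `q / p + O (R)` values of `x` carry points; hence
`∑_x e (Tr (h x) / p)` is `O (√q)`.
-/

set_option autoImplicit false
set_option linter.unusedSectionVars false

noncomputable section

namespace FA.AdditiveSums

open Polynomial Finset
open scoped Classical

variable {K : Type*} [Field K] [Fintype K] {p : ℕ} [Fact p.Prime] [CharP K p]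

local notation "𝕢" => Fintype.card K

/-- The `x` carrying a point. -/
def pointXs (p : ℕ) (h : K[X]) : Finset K := univ.filter fun x => ∃ y : K, y ^ p - y = h.eval x

theorem exists_function {h : K[X]} (hm : ¬ p ∣ h.natDegree) {e l k : ℕ}
    (hq : 𝕢 = (p ^ e) ^ 2) (hl : l < p ^ e)
    (hcount : l * p ^ e + k + 1 < (l + 1 - p * h.natDegree) * (k + 1 - p * h.natDegree)) :
    ∃ G : CurveRing p h, G ≠ 0 ∧ G ∈ weightSpace p h (l + k * p ^ e + 1) ∧
      ∀ (x₀ y₀ : K) (hy : eval₂ (evalRingHom x₀) y₀ (curvePoly p h) = 0),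
        AdjoinRoot.lift (evalRingHom x₀) y₀ hy G = 0 := by
  obtain ⟨R, hR⟩ : ∃ R, R = p ^ e := ⟨_, rfl⟩
  rw [← hR] at hq hl hcount ⊢
  have hR0 : 0 < R := by omega
  obtain ⟨I, hI⟩ : ∃ I, I = Icc (p * h.natDegree) l := ⟨_, rfl⟩
  obtain ⟨J, hJ⟩ : ∃ J, J = Icc (p * h.natDegree) k := ⟨_, rfl⟩
  have hIw : ∀ w ∈ I, IsWeight p h w ∧ w ≤ l := fun w hw => by
    rw [hI, mem_Icc] at hw
    exact ⟨isWeight_of_le hw.1, hw.2⟩
  have hJw : ∀ w ∈ J, IsWeight p h w ∧ w ≤ k := fun w hw => by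
    rw [hJ, mem_Icc] at hw
    exact ⟨isWeight_of_le hw.1, hw.2⟩
  obtain ⟨U, hU⟩ : ∃ U : (↥(I ×ˢ J)) → CurveRing p h,
      U = fun x => stdMono p h x.1.1 ^ R * stdMono p h x.1.2 := ⟨_, rfl⟩
  have hUmem : ∀ x, U x ∈ weightSpace p h (l * R + k + 1) := by
    intro x
    have hx := mem_product.1 x.2
    simp only [hU, stdMono, mono_pow, mono_mul]
    refine mono_mem hm _ _ ?_
    have h1 := expX_mul_add hm (hIw _ hx.1).1
    have h2 := expX_mul_add hm (hJw _ hx.2).1
    have h3 := Nat.mul_le_mul_right R (hIw _ hx.1).2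
    have h4 := (hJw _ hx.2).2
    have e1 : (expX p h x.1.1 * R + expX p h x.1.2) * p +
        (expY p h x.1.1 * R + expY p h x.1.2) * h.natDegree = x.1.1 * R + x.1.2 := by
      conv_rhs => rw [← h1, ← h2]
      ring
    omega
  let Φ : (↥(I ×ˢ J) → K) →ₗ[K] weightSpace p h (l * R + k + 1) :=
    LinearMap.codRestrict _ (Fintype.linearCombination K U) fun a => by
      rw [Fintype.linearCombination_apply]
      exact sum_mem fun x _ => Submodule.smul_mem _ _ (hUmem x)
  have : FiniteDimensional K (weightSpace p h (l * R + k + 1)) :=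
    FiniteDimensional.span_of_finite K ((Set.finite_lt_nat _).subset (fun w hw => hw.1) |>.image _)
  have hker : LinearMap.ker Φ ≠ ⊥ := by
    refine LinearMap.ker_ne_bot_of_finrank_lt ?_
    rw [Module.finrank_fintype_fun_eq_card, Fintype.card_coe, card_product, hI, hJ, Nat.card_Icc,
      Nat.card_Icc]
    exact (finrank_weightSpace_le _).trans_lt hcount
  obtain ⟨a, ha, ha0⟩ := (Submodule.ne_bot_iff _).1 hker
  rw [LinearMap.mem_ker, Subtype.ext_iff] at ha
  simp only [Φ, LinearMap.codRestrict_apply, Fintype.linearCombination_apply,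
    ZeroMemClass.coe_zero] at ha
  obtain ⟨G, hG⟩ : ∃ G : CurveRing p h,
      G = ∑ x, a x ^ R • (stdMono p h x.1.1 * stdMono p h x.1.2 ^ R) := ⟨_, rfl⟩
  have hwt : ∀ x : ↥(I ×ˢ J), IsWeight p h (x.1.1 + R * x.1.2) ∧ ∃ c : K, c ≠ 0 ∧
      stdMono p h x.1.1 * stdMono p h x.1.2 ^ R - c • stdMono p h (x.1.1 + R * x.1.2) ∈
        weightSpace p h (x.1.1 + R * x.1.2) := by
    intro x
    have hx := mem_product.1 x.2
    have h1 := expX_mul_add hm (hIw _ hx.1).1
    have h2 := expX_mul_add hm (hJw _ hx.2).1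
    have e1 : (expX p h x.1.1 + expX p h x.1.2 * R) * p +
        (expY p h x.1.1 + expY p h x.1.2 * R) * h.natDegree = x.1.1 + R * x.1.2 := by
      conv_rhs => rw [← h1, ← h2]
      ring
    have h3 := mono_reduce hm (expY p h x.1.1 + expY p h x.1.2 * R)
      (expX p h x.1.1 + expX p h x.1.2 * R)
    rw [e1] at h3
    simp only [stdMono, mono_pow, mono_mul]
    exact h3
  refine ⟨G, ?_, ?_, ?_⟩
  · obtain ⟨S, hS⟩ : ∃ S : Finset ↥(I ×ˢ J), S = univ.filter fun x => a x ≠ 0 := ⟨_, rfl⟩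
    obtain ⟨x₁, hx₁⟩ := Function.ne_iff.1 ha0
    obtain ⟨x₀, hx₀, hmax⟩ := exists_max_image S (fun x => x.1.1 + R * x.1.2)
      ⟨x₁, hS ▸ mem_filter.2 ⟨mem_univ _, hx₁⟩⟩
    rw [hS, mem_filter] at hx₀
    intro hG0
    have hc0 := congrArg (weightCoeff p h (x₀.1.1 + R * x₀.1.2)) hG0
    rw [hG, map_sum, map_zero,
      sum_eq_single x₀ (fun x _ hne => ?_) (fun h' => absurd (mem_univ _) h'),
      map_smul] at hc0
    · obtain ⟨hw0, c, hc, hmem⟩ := hwt x₀
      rw [← sub_add_cancel (stdMono p h x₀.1.1 * stdMono p h x₀.1.2 ^ R)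
        (c • stdMono p h (x₀.1.1 + R * x₀.1.2)), map_add, weightCoeff_eq_zero hm hw0 le_rfl hmem,
        zero_add, map_smul, weightCoeff_stdMono hm hw0 hw0, if_pos rfl, smul_eq_mul, smul_eq_mul,
        mul_one] at hc0
      exact mul_ne_zero (pow_ne_zero _ hx₀.2) hc hc0
    · rcases eq_or_ne (a x) 0 with h0 | h0
      · rw [h0, zero_pow hR0.ne', zero_smul, map_zero]
      have hle := hmax x (hS ▸ mem_filter.2 ⟨mem_univ _, h0⟩)
      have hlt : x.1.1 + R * x.1.2 < x₀.1.1 + R * x₀.1.2 := by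
        refine lt_of_le_of_ne hle fun heq => hne (Subtype.ext ?_)
        have h1 := (hIw _ (mem_product.1 x.2).1).2
        have h2 := (hIw _ (mem_product.1 x₀.2).1).2
        have e1 : x.1.1 = x₀.1.1 := by
          have := congrArg (· % R) heq
          simp only [Nat.add_mul_mod_self_left, Nat.mod_eq_of_lt (show x.1.1 < R by omega),
            Nat.mod_eq_of_lt (show x₀.1.1 < R by omega)] at this
          exact this
        rw [e1] at heq
        exact Prod.ext e1 (Nat.eq_of_mul_eq_mul_left hR0 (Nat.add_left_cancel heq))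
      obtain ⟨hw, c, -, hmem⟩ := hwt x
      rw [map_smul, weightCoeff_eq_zero hm (hwt x₀).1 (Nat.succ_le_of_lt hlt), smul_zero]
      rw [← sub_add_cancel (stdMono p h x.1.1 * stdMono p h x.1.2 ^ R)
        (c • stdMono p h (x.1.1 + R * x.1.2))]
      exact add_mem (weightSpace_mono p h (Nat.le_succ _) hmem)
        (Submodule.smul_mem _ _ (Submodule.subset_span ⟨_, ⟨Nat.lt_succ_self _, hw⟩, rfl⟩))
  · rw [hG]
    refine sum_mem fun x _ => Submodule.smul_mem _ _ ?_
    obtain ⟨hw, c, -, hmem⟩ := hwt x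
    have hx := mem_product.1 x.2
    have hle : x.1.1 + R * x.1.2 < l + k * R + 1 := by
      have := Nat.mul_le_mul_left R (hJw _ hx.2).2
      have := (hIw _ hx.1).2
      rw [mul_comm k R]
      omega
    rw [← sub_add_cancel (stdMono p h x.1.1 * stdMono p h x.1.2 ^ R)
      (c • stdMono p h (x.1.1 + R * x.1.2))]
    exact add_mem (weightSpace_mono p h hle.le hmem)
      (Submodule.smul_mem _ _ (Submodule.subset_span ⟨_, ⟨hle, hw⟩, rfl⟩))
  · intro x₀ y₀ hy
    obtain ⟨ev, hev⟩ : ∃ ev, ev = AdjoinRoot.lift (evalRingHom x₀) y₀ hy := ⟨_, rfl⟩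
    rw [← hev]
    have hsmul : ∀ (c : K) (z : CurveRing p h), ev (c • z) = c * ev z := fun c z => by
      rw [hev, Algebra.smul_def, map_mul, AdjoinRoot.algebraMap_eq', RingHom.comp_apply,
        AdjoinRoot.lift_of, Polynomial.algebraMap_apply, coe_evalRingHom, eval_C,
        Algebra.algebraMap_self, RingHom.id_apply]
    have hfix : ∀ z : K, (z ^ R) ^ R = z := fun z => by
      rw [← pow_mul, ← sq, ← hq, FiniteField.pow_card]
    have h1 : ev G ^ R = ev (∑ x, a x • U x) := by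
      rw [hG, map_sum, hR, sum_pow_char_pow, map_sum, ← hR]
      refine sum_congr rfl fun x _ => ?_
      rw [hU, hsmul, hsmul, map_mul, map_mul, map_pow, map_pow, mul_pow, mul_pow, hfix, hfix]
    rw [ha, map_zero] at h1
    exact eq_zero_of_pow_eq_zero h1

theorem eval₂_curvePoly (h : K[X]) (x₀ y : K) :
    eval₂ (evalRingHom x₀) y (curvePoly p h) = y ^ p - y - h.eval x₀ := by
  rw [curvePoly, eval₂_sub, eval₂_X_pow, eval₂_add, eval₂_X, eval₂_C, coe_evalRingHom, sub_sub]

theorem card_pointXs_mul_le {h : K[X]} {e : ℕ} (hm : ¬ p ∣ h.natDegree) (hq : 𝕢 = (p ^ e) ^ 2) :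
    (pointXs p h).card * p ≤ 𝕢 + p * (4 * p * h.natDegree + 4) * p ^ e := by
  obtain ⟨R, hR⟩ : ∃ R, R = p ^ e := ⟨_, rfl⟩
  rw [← hR] at hq ⊢
  have hp := (Fact.out : p.Prime).two_le
  have hm0 : 1 ≤ h.natDegree := Nat.one_le_iff_ne_zero.2 fun e' => hm (e' ▸ dvd_zero p)
  obtain ⟨g, hg⟩ : ∃ g, g = p * h.natDegree := ⟨_, rfl⟩
  rw [show 4 * p * h.natDegree = 4 * g by rw [hg]; ring]
  have hg2 : 2 ≤ g := hg ▸ le_trans (by omega) (Nat.mul_le_mul hp hm0)
  by_cases hbig : R < 2 * g + 4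
  · have h1 : (pointXs p h).card ≤ R * R := by
      rw [← sq, ← hq, ← card_univ]
      exact card_le_univ _
    refine le_trans (Nat.mul_le_mul_right p h1) (le_trans ?_ (Nat.le_add_left _ _))
    rw [mul_comm (R * R), ← mul_assoc]
    exact Nat.mul_le_mul_right _ (Nat.mul_le_mul_left _ (by omega))
  rw [not_lt] at hbig
  obtain ⟨G, hG0, hGw, hGev⟩ := exists_function (p := p) hm (e := e) (l := R - 1) (k := R + 3 * g)
    (by rw [← hR]; exact hq) (by rw [← hR]; omega) (by
      rw [← hR, ← hg]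
      obtain ⟨s, hs⟩ : ∃ s, R = g + s := ⟨R - g, by omega⟩
      rw [show R - 1 + 1 - g = s by omega, show R + 3 * g + 1 - g = R + (2 * g + 1) by omega,
        Nat.sub_mul, one_mul, mul_add]
      have h1 : R * R = (g + s) * R := by rw [← hs]
      have h2 : g * R + (3 * g + 2) ≤ s * (2 * g + 1) := by
        have h3 : g * R + g * s = g * g + 2 * (g * s) := by rw [hs]; ring
        have h4 : (g + 4) * (g + 1) ≤ s * (g + 1) := Nat.mul_le_mul_right _ (by omega)
        nlinarith
      rw [add_mul] at h1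
      have h5 : R ≤ R * R := Nat.le_mul_self R
      omega)
  rw [← hR] at hGw
  obtain ⟨P, hP⟩ : ∃ P, P = AdjoinRoot.modByMonicHom (monic_curvePoly p h) G := ⟨_, rfl⟩
  have hPG : AdjoinRoot.mk _ P = G := hP ▸ AdjoinRoot.mk_leftInverse (monic_curvePoly p h) G
  obtain ⟨j, hj⟩ : ∃ j, P.coeff j ≠ 0 := by
    by_contra! hall
    refine hG0 ?_
    rw [← hPG, show P = 0 from Polynomial.ext fun j => by rw [hall j, coeff_zero], map_zero]
  have hPdeg : P.degree < (p : WithBot ℕ) := by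
    obtain ⟨z, hz⟩ := AdjoinRoot.mk_surjective G
    rw [hP, ← hz, AdjoinRoot.modByMonicHom_mk]
    refine (degree_modByMonic_lt _ (monic_curvePoly p h)).trans_le ?_
    rw [degree_eq_natDegree (monic_curvePoly p h).ne_zero, natDegree_curvePoly]
  have hroots : ∀ x₀ ∈ pointXs p h, (P.coeff j).eval x₀ = 0 := by
    intro x₀ hx₀
    obtain ⟨y₀, hy₀⟩ := (mem_filter.1 hx₀).2
    have key : ∀ y : K, y ^ p - y = h.eval x₀ → eval₂ (evalRingHom x₀) y P = 0 := fun y hy => by
      have hy' : eval₂ (evalRingHom x₀) y (curvePoly p h) = 0 := by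
        rw [eval₂_curvePoly, hy, sub_self]
      have := hGev x₀ y hy'
      rwa [← hPG, AdjoinRoot.lift_mk] at this
    have hz : P.map (evalRingHom x₀) = 0 := by
      refine eq_zero_of_natDegree_lt_card_of_eval_eq_zero _
        (f := fun c : ZMod p => y₀ + ZMod.castHom (dvd_refl p) K c)
        ((add_right_injective y₀).comp (ZMod.castHom (dvd_refl p) K).injective) (fun c => ?_) ?_
      · rw [eval_map]
        refine key _ ?_
        rw [add_pow_char, ← map_pow, ZMod.pow_card, add_sub_add_right_eq_sub, hy₀]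
      · rw [ZMod.card]
        rcases eq_or_ne (P.map (evalRingHom x₀)) 0 with h0 | h0
        · rw [h0, natDegree_zero]
          omega
        · rw [natDegree_lt_iff_degree_lt h0]
          exact degree_map_le.trans_lt hPdeg
    have := congrArg (fun Z : K[X] => Z.coeff j) hz
    simpa [coeff_map] using this
  have h1 : (pointXs p h).card ≤ (P.coeff j).natDegree :=
    (card_le_degree_of_subset_roots fun x hx => (mem_roots hj).2 (hroots x hx))
  have h2 := (natDegree_coeff_mul_lt hm hGw j).resolve_left (by rwa [← hP])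
  rw [← hP] at h2
  have h3 := Nat.mul_le_mul_right p h1
  have h4 : R ≤ p * R := Nat.le_mul_of_pos_left _ (by omega)
  have h5 : p * R * (3 * g) + p * R ≤ p * (4 * g + 4) * R := by
    rw [mul_right_comm p (4 * g + 4) R]
    exact (mul_add_one (p * R) (3 * g)).symm.le.trans (Nat.mul_le_mul_left _ (by omega))
  have h6 : R * (3 * g) ≤ p * R * (3 * g) := Nat.mul_le_mul_right _ h4
  rw [add_mul, mul_comm (3 * g) R] at h2
  rw [hq, sq]
  omega

variable [Algebra (ZMod p) K]

/-- **The additive sum over a square field.** -/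
theorem norm_sum_trace_le {h : K[X]} {e : ℕ} (hm : ¬ p ∣ h.natDegree) (hq : 𝕢 = (p ^ e) ^ 2) :
    ‖∑ x : K, (ZMod.stdAddChar (Algebra.trace (ZMod p) K (h.eval x)) : ℂ)‖ ≤
      p * (4 * p * h.natDegree + 4) * (p : ℝ) ^ e := by
  have hp := (Fact.out : p.Prime).one_lt
  have hm0 : 1 ≤ h.natDegree := Nat.one_le_iff_ne_zero.2 fun e' => hm (e' ▸ dvd_zero p)
  obtain ⟨N, hN⟩ : ∃ N : ZMod p → Finset K,
      N = fun b => univ.filter fun x => Algebra.trace (ZMod p) K (h.eval x) = b := ⟨_, rfl⟩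
  obtain ⟨T, hT⟩ : ∃ T : ℝ, T = (𝕢 : ℝ) / p + (4 * p * h.natDegree + 4) * (p : ℝ) ^ e := ⟨_, rfl⟩
  have hNT : ∀ b, ((N b).card : ℝ) ≤ T := by
    intro b
    obtain ⟨b₀, hb₀⟩ := Algebra.trace_surjective (ZMod p) K b
    have hdeg : (h - C b₀).natDegree = h.natDegree := natDegree_sub_C
    have he : N b = pointXs p (h - C b₀) := by
      ext x
      simp only [hN, pointXs, mem_filter, mem_univ, true_and, eval_sub, eval_C]
      rw [← Kloosterman.trace_eq_zero_iff, map_sub, hb₀, sub_eq_zero]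
    have h1 := card_pointXs_mul_le (p := p) (h := h - C b₀) (e := e) (by rwa [hdeg]) hq
    rw [hdeg, ← he] at h1
    have h2 : ((N b).card : ℝ) * p ≤ 𝕢 + p * (4 * p * h.natDegree + 4) * (p : ℝ) ^ e := by
      exact_mod_cast h1
    rw [hT, div_add' _ _ _ (Nat.cast_ne_zero.2 (by omega)), le_div_iff₀ (Nat.cast_pos.2 (by omega))]
    linarith
  have hsum : ∑ x : K, (ZMod.stdAddChar (Algebra.trace (ZMod p) K (h.eval x)) : ℂ) =
      ∑ b : ZMod p, ZMod.stdAddChar b * (((N b).card : ℂ) - (T : ℂ)) := by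
    have h0 : ∑ b : ZMod p, (ZMod.stdAddChar b : ℂ) = 0 :=
      AddChar.sum_eq_zero_of_ne_one (by
        intro hc
        have h1 := congrFun (congrArg DFunLike.coe hc) 1
        rw [AddChar.one_apply] at h1
        exact one_ne_zero (ZMod.injective_stdAddChar (h1.trans (AddChar.map_zero_eq_one _).symm)))
    simp only [mul_sub, sum_sub_distrib, ← sum_mul, h0, zero_mul, sub_zero]
    rw [← sum_fiberwise univ (fun x : K => Algebra.trace (ZMod p) K (h.eval x))]
    refine sum_congr rfl fun b _ => ?_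
    rw [sum_congr rfl fun x hx => by rw [(mem_filter.1 hx).2], sum_const, nsmul_eq_mul, mul_comm,
      hN]
  have hcover : (𝕢 : ℝ) = ∑ b : ZMod p, ((N b).card : ℝ) := by
    rw [← Nat.cast_sum, hN, ← card_eq_sum_card_fiberwise (fun x _ => mem_univ _), card_univ]
  rw [hsum]
  refine (norm_sum_le_of_le _ (n := fun b => T - ((N b).card : ℝ)) fun b _ => ?_).trans ?_
  · rw [norm_mul, AddChar.norm_apply, one_mul, ← Complex.ofReal_natCast, ← Complex.ofReal_sub,
      Complex.norm_real, Real.norm_eq_abs, abs_sub_comm, abs_of_nonneg (sub_nonneg.2 (hNT b))]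
  · rw [sum_sub_distrib, sum_const, card_univ, ZMod.card, nsmul_eq_mul, ← hcover, hT, mul_add,
      mul_div_cancel₀ _ (Nat.cast_ne_zero.2 (by omega)), add_sub_cancel_left]
    exact le_of_eq (by ring)

end FA.AdditiveSums
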