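import Fermat.Agent.Kloosterman.Newton
import Fermat.Agent.DworkRationality.Newton
import Mathlib.RingTheory.Trace.Basic
import Mathlib.NumberTheory.LegendreSymbol.AddCharacter
import Mathlib.Analysis.Complex.Basic

/-!
# The L-polynomial of `x ↦ ψ (f x)`

`g ↦ ψ (∑ f α)` over the roots `α` of `g`: moving the coefficient of `X ^ (d - m)` moves only the
`m`-th power sum of the roots, linearly, so the sums over the monics of degree `d ≥ m` vanish.
-/

set_option autoImplicit false
set_option linter.unusedSectionVars false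

noncomputable section

namespace FA.AdditiveSums

open Polynomial Finset UniqueFactorizationMonoid FA.HyperellipticWeil FA.Kloosterman
  FA.DworkRationality
open scoped Classical

variable {F : Type*} [Field F] [Fintype F] [DecidableEq F]

local notation "Ω" => AlgebraicClosure F

/-- The sum of `f` over the roots of `g`. -/
def traceRoots (f g : F[X]) : F :=
  ((normalizedFactors g).map fun P => Algebra.trace F (AdjoinRoot P) (AdjoinRoot.mk P f)).sum

/-- The multiplicative function. -/
def addL (ψ : AddChar F ℂ) (f g : F[X]) : ℂ := ψ (traceRoots f g)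

theorem addL_one (ψ : AddChar F ℂ) (f : F[X]) : addL ψ f 1 = 1 := by
  simp [addL, traceRoots]

theorem addL_mul (ψ : AddChar F ℂ) (f g h : F[X]) (hg : g.Monic) (hh : h.Monic) :
    addL ψ f (g * h) = addL ψ f g * addL ψ f h := by
  rw [addL, addL, addL, ← AddChar.map_add_eq_mul, traceRoots, traceRoots, traceRoots,
    normalizedFactors_mul hg.ne_zero hh.ne_zero, Multiset.map_add, Multiset.sum_add]

theorem algebraMap_trace_mk {P : F[X]} (f : F[X]) (hirr : Irreducible P) :
    algebraMap F Ω (Algebra.trace F (AdjoinRoot P) (AdjoinRoot.mk P f)) =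
      ((P.aroots Ω).map fun α => aeval α f).sum := by
  have := Fact.mk hirr
  have : Module.Finite F (AdjoinRoot P) := (AdjoinRoot.powerBasis hirr.ne_zero).finite
  rw [trace_eq_sum_embeddings Ω]
  have hnd : (P.aroots Ω).Nodup := nodup_roots (PerfectField.separable_of_irreducible hirr).map
  rw [← Equiv.sum_comp (AdjoinRoot.equiv Ω F P hirr.ne_zero).symm]
  rw [show ((P.aroots Ω).map fun α => aeval α f).sum =
    ∑ α ∈ (⟨_, hnd⟩ : Finset Ω), aeval α f from rfl]
  refine sum_bij (fun x _ => (x : Ω)) ?_ ?_ ?_ ?_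
  · exact fun x _ => x.2
  · exact fun x _ y _ h => Subtype.ext h
  · exact fun b hb => ⟨⟨b, hb⟩, mem_univ _, rfl⟩
  · intro x _
    obtain ⟨σ, rfl⟩ := (AdjoinRoot.equiv Ω F P hirr.ne_zero).surjective x
    rw [Equiv.symm_apply_apply, ← AdjoinRoot.aeval_eq f, ← aeval_algHom_apply]
    rfl

theorem algebraMap_traceRoots {g : F[X]} (f : F[X]) (hg : g.Monic) :
    algebraMap F Ω (traceRoots f g) = ((g.aroots Ω).map fun α => aeval α f).sum := by
  have h0 : (0 : F[X]) ∉ normalizedFactors g := zero_notMem_normalizedFactors g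
  conv_rhs => rw [← hg.normalize_eq_self, ← prod_normalizedFactors_eq hg.ne_zero]
  rw [aroots_def, Polynomial.map_multiset_prod, roots_multiset_prod _ (by
      simp only [Multiset.mem_map, not_exists, not_and]
      exact fun P hP e => h0 ((Polynomial.map_eq_zero_iff (algebraMap F Ω).injective).1 e ▸ hP)),
    Multiset.bind_map, traceRoots, map_multiset_sum, Multiset.map_bind, Multiset.sum_bind,
    Multiset.map_map]
  exact congrArg Multiset.sum (Multiset.map_congr rfl fun P hP =>
    algebraMap_trace_mk f (irreducible_of_normalized_factor P hP))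

/-- The power sums of the roots. -/
def rootPowSum (g : F[X]) (i : ℕ) : Ω := ((g.aroots Ω).map (· ^ i)).sum

theorem algebraMap_traceRoots_eq {g : F[X]} (f : F[X]) (hg : g.Monic) :
    algebraMap F Ω (traceRoots f g) =
      ∑ i ∈ range (f.natDegree + 1), algebraMap F Ω (f.coeff i) * rootPowSum g i := by
  rw [algebraMap_traceRoots f hg]
  simp only [rootPowSum, ← Multiset.sum_map_mul_left, ← Multiset.sum_map_sum, aeval_eq_sum_range,
    Algebra.smul_def]

theorem coe_reverse_eq {G : Polynomial Ω} (hG : G.Monic) :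
    (G.reverse : PowerSeries Ω) =
      (G.roots.map fun x => 1 - PowerSeries.C x * PowerSeries.X).prod := by
  conv_lhs => rw [(IsAlgClosed.splits G).eq_prod_roots_of_monic hG]
  rw [← prod_one_sub_eq_reverse, ← Polynomial.coeToPowerSeries.ringHom_apply, map_multiset_prod,
    Multiset.map_map]
  simp

/-- **Newton's identities for the coefficients from the top.** -/
theorem newton_top {g : F[X]} (hg : g.Monic) {j : ℕ} (hj : j < g.natDegree) :
    algebraMap F Ω (g.coeff (g.natDegree - (j + 1))) * ((j : Ω) + 1) =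
      -∑ i ∈ range (j + 1),
        rootPowSum g (i + 1) * algebraMap F Ω (g.coeff (g.natDegree - (j - i))) := by
  have hc : ∀ k ≤ g.natDegree,
      PowerSeries.coeff k ((g.map (algebraMap F Ω)).reverse : PowerSeries Ω) =
        algebraMap F Ω (g.coeff (g.natDegree - k)) := fun k hk => by
    rw [Polynomial.coeff_coe, coeff_reverse, natDegree_map, revAt_le hk, coeff_map]
  have h := derivative_prod_one_sub (g.aroots Ω)
  rw [aroots_def, ← coe_reverse_eq (hg.map _)] at h
  have h2 := congrArg (PowerSeries.coeff j) h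
  rw [PowerSeries.coeff_derivative, map_neg, PowerSeries.coeff_mul,
    Finset.Nat.sum_antidiagonal_eq_sum_range_succ_mk, hc _ hj] at h2
  rw [h2]
  refine congrArg Neg.neg (sum_congr rfl fun i hi => ?_)
  rw [hc _ (by have := mem_range.1 hi; omega)]
  simp [logSeries, rootPowSum, aroots_def]

/-- `g + t X ^ (d - m)`. -/
def shiftCoeff (m : ℕ) (t : F) (g : F[X]) : F[X] := g + C t * X ^ (g.natDegree - m)

theorem shiftCoeff_facts {g : F[X]} (hg : g.Monic) {m : ℕ} (hm : 1 ≤ m) (hd : m ≤ g.natDegree)
    (t : F) :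
    (shiftCoeff m t g).Monic ∧ (shiftCoeff m t g).natDegree = g.natDegree := by
  have h1 : (C t * X ^ (g.natDegree - m)).degree < g.degree := by
    rw [degree_eq_natDegree hg.ne_zero]
    exact (degree_C_mul_X_pow_le _ _).trans_lt (Nat.cast_lt.2 (by omega))
  exact ⟨hg.add_of_left h1,
    natDegree_eq_of_degree_eq (degree_add_eq_left_of_degree_lt h1)⟩

theorem coeff_shiftCoeff {g : F[X]} (m : ℕ) (t : F) (k : ℕ) :
    (shiftCoeff m t g).coeff k = g.coeff k + if k = g.natDegree - m then t else 0 := by
  rw [shiftCoeff, coeff_add, coeff_C_mul_X_pow]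

theorem rootPowSum_shiftCoeff {g : F[X]} (hg : g.Monic) {m : ℕ} (hm : 1 ≤ m)
    (hd : m ≤ g.natDegree) (t : F) :
    (∀ i, i < m → rootPowSum (shiftCoeff m t g) i = rootPowSum g i) ∧
      rootPowSum (shiftCoeff m t g) m = rootPowSum g m - (m : Ω) * algebraMap F Ω t := by
  obtain ⟨hs, hsd⟩ := shiftCoeff_facts hg hm hd t
  have hzero : rootPowSum (shiftCoeff m t g) 0 = rootPowSum g 0 := by
    simp [rootPowSum, aroots_def, ← (IsAlgClosed.splits _).natDegree_eq_card_roots, natDegree_map,
      hsd]
  have hco : ∀ k, k < m →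
      (shiftCoeff m t g).coeff (g.natDegree - k) = g.coeff (g.natDegree - k) := fun k hk => by
    rw [coeff_shiftCoeff, if_neg (by omega), add_zero]
  have key : ∀ j, j < m → rootPowSum (shiftCoeff m t g) (j + 1) =
      rootPowSum g (j + 1) - if j + 1 = m then (m : Ω) * algebraMap F Ω t else 0 := by
    intro j
    induction j using Nat.strong_induction_on with
    | _ j ih =>
      intro hj
      have h1 := newton_top hs (j := j) (by omega)
      have h2 := newton_top hg (j := j) (by omega)
      rw [hsd, sum_range_succ, Nat.sub_self, Nat.sub_zero] at h1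
      rw [sum_range_succ, Nat.sub_self, Nat.sub_zero, hg.coeff_natDegree, map_one, mul_one] at h2
      rw [← hsd, hs.coeff_natDegree, map_one, mul_one, hsd] at h1
      have hsum : ∀ i ∈ range j, rootPowSum (shiftCoeff m t g) (i + 1) *
            algebraMap F Ω ((shiftCoeff m t g).coeff (g.natDegree - (j - i))) =
          rootPowSum g (i + 1) * algebraMap F Ω (g.coeff (g.natDegree - (j - i))) := fun i hi => by
        rw [mem_range] at hi
        rw [ih i hi (by omega), if_neg (by omega), sub_zero, hco (j - i) (by omega)]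
      rw [sum_congr rfl hsum] at h1
      rw [coeff_shiftCoeff] at h1
      rcases eq_or_ne (j + 1) m with e | e
      · rw [if_pos e]
        rw [if_pos (by rw [e]), map_add] at h1
        subst e
        push_cast
        linear_combination h1 - h2
      · rw [if_neg e, sub_zero]
        rw [if_neg (by omega), add_zero] at h1
        linear_combination h1 - h2
  refine ⟨fun i hi => ?_, ?_⟩
  · rcases i with _ | i
    · exact hzero
    · rw [key i (by omega), if_neg (by omega), sub_zero]
  · obtain ⟨j, rfl⟩ : ∃ j, m = j + 1 := ⟨m - 1, by omega⟩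
    rw [key j (by omega), if_pos rfl]

theorem traceRoots_shiftCoeff {g f : F[X]} (hg : g.Monic) (hm : 1 ≤ f.natDegree)
    (hd : f.natDegree ≤ g.natDegree) (t : F) :
    traceRoots f (shiftCoeff f.natDegree t g) =
      traceRoots f g - f.leadingCoeff * f.natDegree * t := by
  obtain ⟨h1, h2⟩ := rootPowSum_shiftCoeff hg hm hd t
  apply (algebraMap F Ω).injective
  rw [map_sub, algebraMap_traceRoots_eq f (shiftCoeff_facts hg hm hd t).1,
    algebraMap_traceRoots_eq f hg, sum_range_succ, sum_range_succ, h2,
    sum_congr rfl fun i hi => by rw [h1 i (mem_range.1 hi)], map_mul, map_mul, map_natCast,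
    leadingCoeff]
  ring

/-- **Orthogonality.** -/
theorem coeffSum_addL_eq_zero {ψ : AddChar F ℂ} (hψ : ψ ≠ 1) {f : F[X]} (hm : 1 ≤ f.natDegree)
    (hchar : (f.natDegree : F) ≠ 0) {d : ℕ} (hd : f.natDegree ≤ d) :
    coeffSum (addL ψ f) d = 0 := by
  obtain ⟨b, hb⟩ : ∃ b, ψ b ≠ 1 := by
    by_contra! h
    exact hψ (DFunLike.ext _ _ fun x => by rw [h x, AddChar.one_apply])
  have hlc : f.leadingCoeff * (f.natDegree : F) ≠ 0 :=
    mul_ne_zero (leadingCoeff_ne_zero.2 fun e => by rw [e, natDegree_zero] at hm; omega) hchar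
  obtain ⟨t, ht⟩ : ∃ t, t = -b / (f.leadingCoeff * (f.natDegree : F)) := ⟨_, rfl⟩
  have key : ∀ g ∈ monics F d,
      addL ψ f (shiftCoeff f.natDegree t g) = ψ b * addL ψ f g := by
    intro g hg
    rw [mem_monics] at hg
    rw [addL, addL, traceRoots_shiftCoeff hg.1 hm (hg.2 ▸ hd) t, ← AddChar.map_add_eq_mul, ht,
      mul_div_cancel₀ _ hlc, sub_neg_eq_add, add_comm]
  have hbij : ∑ g ∈ monics F d, addL ψ f (shiftCoeff f.natDegree t g) =
      ∑ g ∈ monics F d, addL ψ f g := by
    have hmem : ∀ u : F, ∀ g ∈ monics F d,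
        shiftCoeff f.natDegree u g ∈ monics F d := fun u g hg => by
      rw [mem_monics] at hg ⊢
      obtain ⟨h1, h2⟩ := shiftCoeff_facts hg.1 hm (hg.2 ▸ hd) u
      exact ⟨h1, h2.trans hg.2⟩
    refine sum_bij' (fun g _ => shiftCoeff f.natDegree t g)
      (fun g _ => shiftCoeff f.natDegree (-t) g) (hmem t) (hmem (-t)) ?_ ?_ fun _ _ => rfl
    · intro g hg
      rw [mem_monics] at hg
      have h2 := (shiftCoeff_facts hg.1 hm (hg.2 ▸ hd) t).2
      rw [shiftCoeff, h2, shiftCoeff, map_neg]
      ring
    · intro g hg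
      rw [mem_monics] at hg
      have h2 := (shiftCoeff_facts hg.1 hm (hg.2 ▸ hd) (-t)).2
      rw [shiftCoeff, h2, shiftCoeff, map_neg]
      ring
  rw [sum_congr rfl key, ← mul_sum] at hbij
  exact (mul_left_eq_self₀.1 hbij).resolve_left hb

section points

variable {K : Type*} [Field K] [Fintype K] [DecidableEq K] [Algebra F K]

theorem map_trace_aeval_eq_addL (ψ : AddChar F ℂ) (f : F[X]) (x : K) :
    ψ (Algebra.trace F K (aeval x f)) =
      addL ψ f (minpoly F x) ^ (Module.finrank F K / (minpoly F x).natDegree) := by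
  have hint : IsIntegral F x := Algebra.IsIntegral.isIntegral x
  obtain ⟨P, hPdef⟩ : ∃ P, P = minpoly F x := ⟨_, rfl⟩
  rw [← hPdef]
  have hP : P.Monic := hPdef ▸ minpoly.monic hint
  have hirr : Irreducible P := hPdef ▸ minpoly.irreducible hint
  have := Fact.mk hirr
  have h0 : P.eval₂ (Algebra.ofId F K : F →+* K) x = 0 := hPdef ▸ minpoly.aeval F x
  let φ : AdjoinRoot P →ₐ[F] K := AdjoinRoot.liftAlgHom P (Algebra.ofId F K) x h0
  let _ : Algebra (AdjoinRoot P) K := φ.toRingHom.toAlgebra
  have : IsScalarTower F (AdjoinRoot P) K := IsScalarTower.of_algebraMap_eq fun r =>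
    (φ.commutes r).symm
  have : Module.Finite F (AdjoinRoot P) := (AdjoinRoot.powerBasis hirr.ne_zero).finite
  have : Module.Finite (AdjoinRoot P) K := Module.Finite.right F _ K
  have hfin : Module.finrank F (AdjoinRoot P) = P.natDegree :=
    finrank_quotient_span_eq_natDegree
  have hdiv : Module.finrank F K / P.natDegree = Module.finrank (AdjoinRoot P) K := by
    rw [← Module.finrank_mul_finrank F (AdjoinRoot P) K, hfin,
      Nat.mul_div_cancel_left _ hirr.natDegree_pos]
  have hφ : algebraMap (AdjoinRoot P) K (AdjoinRoot.mk P f) = aeval x f := by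
    rw [← AdjoinRoot.aeval_eq]
    exact (aeval_algHom_apply φ _ f).symm.trans (by simp [φ])
  rw [← hφ, ← Algebra.trace_trace (S := AdjoinRoot P), Algebra.trace_algebraMap, map_nsmul,
    AddChar.map_nsmul_eq_pow, addL, traceRoots, normalizedFactors_irreducible hirr,
    hP.normalize_eq_self, Multiset.map_singleton, Multiset.sum_singleton, hdiv]

/-- **The point sums.** -/
theorem sum_eq_mulPowSum (ψ : AddChar F ℂ) (f : F[X]) :
    ∑ x : K, ψ (Algebra.trace F K (aeval x f)) =
      mulPowSum (addL ψ f) (Module.finrank F K) := by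
  have hmaps : ∀ x ∈ (univ : Finset K), minpoly F x ∈
      (irr F (Module.finrank F K)).filter fun P => P.natDegree ∣ Module.finrank F K := fun x _ => by
    have hint : IsIntegral F x := Algebra.IsIntegral.isIntegral x
    exact mem_filter.2 ⟨mem_irr.2 ⟨minpoly.monic hint, minpoly.irreducible hint,
      Nat.le_of_dvd Module.finrank_pos (minpoly.degree_dvd hint)⟩, minpoly.degree_dvd hint⟩
  rw [← sum_fiberwise_of_maps_to hmaps, mulPowSum]
  refine sum_congr rfl fun P hP => ?_
  rw [mem_filter, mem_irr] at hP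
  obtain ⟨⟨hPm, hirr, -⟩, hdvd⟩ := hP
  have hcard := card_minpoly_fiber (K := K) hPm hirr hdvd
  rw [sum_congr rfl fun x hx => by
      rw [map_trace_aeval_eq_addL ψ f x, (mem_filter.1 hx).2],
    sum_const, hcard, nsmul_eq_mul]

end points

end FA.AdditiveSums
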