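import Fermat.Agent.AdditiveSums.ArtinSchreier
import Fermat.Agent.AdditiveSums.LFunction
import Fermat.Agent.HyperellipticWeil.Main
import Fermat.Agent.CharacterSums.Main
import Mathlib.Analysis.Fourier.FiniteAbelian.PontryaginDuality
import Mathlib.NumberTheory.LegendreSymbol.AddCharacter

/-!
# The Riemann hypothesis for `x ↦ ψ (f x)`

Bombieri's bound over the extensions of even degree bounds the power sums of the squares of the
reciprocal roots, so these are `≤ q` in absolute value.
-/

set_option autoImplicit false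
set_option linter.unusedSectionVars false

noncomputable section

namespace FA.AdditiveSums

open Polynomial Finset FA.HyperellipticWeil FA.Kloosterman FA.DworkRationality FA.CharacterSums

variable {F : Type*} [Field F] [Fintype F] [DecidableEq F] {p : ℕ} [Fact p.Prime] [CharP F p]

theorem exists_eq_stdAddChar_trace [Algebra (ZMod p) F] {ψ : AddChar F ℂ} (hψ : ψ ≠ 1) :
    ∃ a : F, a ≠ 0 ∧ ∀ x, ψ x = ZMod.stdAddChar (Algebra.trace (ZMod p) F (a * x)) := by
  classical
  obtain ⟨φ, hφ⟩ : ∃ φ : AddChar F ℂ, φ = (ZMod.stdAddChar (N := p)).compAddMonoidHom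
      (Algebra.trace (ZMod p) F).toAddMonoidHom := ⟨_, rfl⟩
  have hφx : ∀ x, φ x = ZMod.stdAddChar (Algebra.trace (ZMod p) F x) := fun x => by rw [hφ]; rfl
  have hφ1 : φ ≠ 1 := fun h => by
    obtain ⟨x, hx⟩ := Algebra.trace_surjective (ZMod p) F 1
    have h1 := DFunLike.congr_fun h x
    rw [hφx, hx, AddChar.one_apply] at h1
    exact one_ne_zero (ZMod.injective_stdAddChar (h1.trans (AddChar.map_zero_eq_one _).symm))
  obtain ⟨a, rfl⟩ := ((Fintype.bijective_iff_injective_and_card φ.mulShift).2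
    ⟨AddChar.to_mulShift_inj_of_isPrimitive (AddChar.IsPrimitive.of_ne_one hφ1),
      (AddChar.card_eq (α := F)).symm⟩).2 ψ
  refine ⟨a, fun h => hψ ?_, fun x => by rw [AddChar.mulShift_apply, hφx]⟩
  ext x
  rw [AddChar.mulShift_apply, h, zero_mul, AddChar.map_zero_eq_one, AddChar.one_apply]

variable {ψ : AddChar F ℂ} {f : F[X]}

theorem natDegree_cast_ne_zero (hm : ¬ p ∣ f.natDegree) : (f.natDegree : F) ≠ 0 := by
  rwa [Ne, CharP.cast_eq_zero_iff F p]

theorem norm_mulPowSum_even_le (hψ : ψ ≠ 1) (hm : ¬ p ∣ f.natDegree) {n : ℕ} (hn : 1 ≤ n) :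
    ‖mulPowSum (addL ψ f) (2 * n)‖ ≤
      p * (4 * p * f.natDegree + 4) * (Fintype.card F : ℝ) ^ n := by
  classical
  have : NeZero (2 * n) := ⟨by omega⟩
  let K := FiniteField.Extension F p (2 * n)
  let _ : Fintype K := Fintype.ofFinite K
  have : CharP K p := charP_of_injective_algebraMap (algebraMap F K).injective p
  let _ : Algebra (ZMod p) F := ZMod.algebra F p
  let _ : Algebra (ZMod p) K := ZMod.algebra K p
  have : IsScalarTower (ZMod p) F K := IsScalarTower.of_algebraMap_eq' (Subsingleton.elim _ _)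
  obtain ⟨a, ha, hψa⟩ := exists_eq_stdAddChar_trace (p := p) hψ
  obtain ⟨e, -, he⟩ := FiniteField.card F p
  have hdeg : ((f.map (algebraMap F K)) * C (algebraMap F K a)).natDegree = f.natDegree := by
    rw [natDegree_mul_C ((_root_.map_ne_zero _).2 ha), natDegree_map]
  have hc : Fintype.card K = (p ^ ((e : ℕ) * n)) ^ 2 := by
    rw [Fintype.card_eq_nat_card, FiniteField.natCard_extension, ← Fintype.card_eq_nat_card, he,
      ← pow_mul, ← pow_mul]
    congr 1
    ring
  have h := norm_sum_trace_le (h := (f.map (algebraMap F K)) * C (algebraMap F K a))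
    (by rwa [hdeg]) hc
  rw [hdeg] at h
  refine le_of_eq_of_le (congrArg _ ?_) (h.trans (le_of_eq ?_))
  · have h3 := sum_eq_mulPowSum (K := K) ψ f
    rw [FiniteField.finrank_extension F p (2 * n)] at h3
    rw [← h3]
    refine sum_congr rfl fun x _ => ?_
    rw [hψa, eval_mul, eval_C, eval_map_algebraMap, mul_comm (aeval x f), ← Algebra.smul_def,
      ← Algebra.trace_trace (S := F) (a • aeval x f), map_smul (Algebra.trace F K), smul_eq_mul]
  · rw [he, pow_mul]
    push_cast
    ring

variable (ψ f) in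
/-- The L-polynomial. -/
def lPolyA : ℂ[X] := ∑ i ∈ range f.natDegree, Polynomial.C (coeffSum (addL ψ f) i) * X ^ i

theorem coeff_lPolyA (hψ : ψ ≠ 1) (hm : ¬ p ∣ f.natDegree) (i : ℕ) :
    (lPolyA ψ f).coeff i = coeffSum (addL ψ f) i := by
  have hm1 : 1 ≤ f.natDegree := Nat.one_le_iff_ne_zero.2 fun e => hm (e ▸ dvd_zero p)
  rw [lPolyA, finsetSum_coeff]
  simp only [coeff_C_mul_X_pow]
  rw [Finset.sum_ite_eq, if_congr mem_range rfl rfl]
  split_ifs with h
  · rfl
  · exact (coeffSum_addL_eq_zero hψ hm1 (natDegree_cast_ne_zero hm) (not_lt.1 h)).symm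

theorem coeffSum_addL_zero (ψ : AddChar F ℂ) (f : F[X]) : coeffSum (addL ψ f) 0 = 1 := by
  rw [coeffSum, monics_zero, sum_singleton, addL_one]

variable (ψ f) in
/-- The reciprocal roots. -/
def lRootsA : Multiset ℂ := (lPolyA ψ f).reverse.roots

theorem card_lRootsA_le : Multiset.card (lRootsA ψ f) ≤ f.natDegree - 1 := by
  refine (card_roots' _).trans ((reverse_natDegree_le _).trans ?_)
  refine natDegree_sum_le_of_forall_le _ _ fun i hi => (natDegree_C_mul_X_pow_le _ _).trans ?_
  rw [mem_range] at hi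
  omega

theorem mulPowSum_addL_eq_neg (hψ : ψ ≠ 1) (hm : ¬ p ∣ f.natDegree) {n : ℕ} (hn : 1 ≤ n) :
    mulPowSum (addL ψ f) n = -((lRootsA ψ f).map (· ^ n)).sum := by
  obtain ⟨D, hD⟩ : ∃ D : PowerSeries ℂ, D = (lPolyA ψ f : PowerSeries ℂ) := ⟨_, rfl⟩
  have hcoeff : ∀ i, PowerSeries.coeff i D = coeffSum (addL ψ f) i := fun i => by
    rw [hD, Polynomial.coeff_coe, coeff_lPolyA hψ hm]
  have hne : D ≠ 0 := fun h => by
    have := hcoeff 0
    rw [h, map_zero, coeffSum_addL_zero] at this
    exact zero_ne_one this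
  have h1 : PowerSeries.derivative ℂ D = D * logSeries (mulPowSum (addL ψ f)) := by
    ext j
    rw [PowerSeries.coeff_derivative, PowerSeries.coeff_mul,
      Finset.Nat.sum_antidiagonal_eq_sum_range_succ
        (fun a b => PowerSeries.coeff a D *
          PowerSeries.coeff b (logSeries (mulPowSum (addL ψ f))))]
    have h2 := newton_mult (addL ψ f) (addL_one ψ f) (addL_mul ψ f) (j + 1)
    push_cast at h2
    rw [hcoeff, mul_comm, h2, show Icc 1 (j + 1) = Ico 1 (j + 1 + 1) by ext; simp,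
      sum_Ico_eq_sum_range, Nat.add_sub_cancel]
    rw [← sum_range_reflect]
    refine sum_congr rfl fun i hi => ?_
    rw [mem_range] at hi
    simp only [logSeries, PowerSeries.coeff_mk, hcoeff]
    rw [show 1 + (j + 1 - 1 - i) = j - i + 1 by omega, show j + 1 - (j - i + 1) = i by omega,
      mul_comm]
  have h2 := derivative_prod_one_sub (lRootsA ψ f)
  rw [lRootsA, ← coe_eq_prod_roots_reverse (by rw [coeff_lPolyA hψ hm, coeffSum_addL_zero]), ← hD,
    h1, ← lRootsA, mul_comm, ← neg_mul] at h2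
  obtain ⟨j, rfl⟩ := Nat.exists_eq_add_of_le' hn
  simpa [logSeries] using congrArg (PowerSeries.coeff j) (mul_right_cancel₀ hne h2)

/-- **The Riemann hypothesis.** -/
theorem norm_lRootsA_le (hψ : ψ ≠ 1) (hm : ¬ p ∣ f.natDegree) {a : ℂ} (ha : a ∈ lRootsA ψ f) :
    ‖a‖ ≤ Real.sqrt (Fintype.card F) := by
  have h := norm_le_of_powerSums (s := (lRootsA ψ f).map (· ^ 2))
    (C := p * (4 * p * f.natDegree + 4)) (r := (Fintype.card F : ℝ))
    (Nat.cast_pos.2 Fintype.card_pos) (fun n hn => ?_) (Multiset.mem_map_of_mem _ ha)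
  · rw [norm_pow] at h
    exact Real.le_sqrt_of_sq_le h
  · rw [Multiset.map_map]
    simp only [Function.comp_def, ← pow_mul]
    rw [← norm_neg, ← mulPowSum_addL_eq_neg hψ hm (by omega : 1 ≤ 2 * n)]
    exact norm_mulPowSum_even_le hψ hm hn

theorem norm_mulPowSum_addL_le (hψ : ψ ≠ 1) (hm : ¬ p ∣ f.natDegree) {n : ℕ} (hn : 1 ≤ n) :
    ‖mulPowSum (addL ψ f) n‖ ≤
      (f.natDegree - 1 : ℕ) * Real.sqrt (Fintype.card F) ^ n := by
  rw [mulPowSum_addL_eq_neg hψ hm hn, norm_neg]
  refine (norm_multiset_sum_le _).trans ?_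
  rw [Multiset.map_map]
  refine ((Multiset.sum_le_card_nsmul _ (Real.sqrt (Fintype.card F) ^ n) fun x hx => ?_)).trans ?_
  · obtain ⟨a, ha, rfl⟩ := Multiset.mem_map.1 hx
    simp only [Function.comp_apply, norm_pow]
    exact pow_le_pow_left₀ (norm_nonneg _) (norm_lRootsA_le hψ hm ha) _
  · rw [Multiset.card_map, nsmul_eq_mul]
    exact mul_le_mul_of_nonneg_right (Nat.cast_le.2 card_lRootsA_le) (by positivity)

/-- **Weil's bound, exact.** -/
theorem norm_sum_addChar_le (hψ : ψ ≠ 1) (hm : ¬ p ∣ f.natDegree) :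
    ‖∑ x : F, ψ (f.eval x)‖ ≤ (f.natDegree - 1 : ℕ) * Real.sqrt (Fintype.card F) := by
  have h := norm_mulPowSum_addL_le hψ hm le_rfl
  rw [pow_one, ← Module.finrank_self F, ← sum_eq_mulPowSum (K := F), Module.finrank_self] at h
  refine le_of_eq_of_le (congrArg _ (sum_congr rfl fun x _ => ?_)) h
  rw [coe_aeval_eq_eval, Algebra.trace_self_apply]

/-- The points of `y ^ p - y = f x`. -/
theorem abs_card_artinSchreier_sub_le (hm : ¬ p ∣ f.natDegree) :
    |((univ.filter fun z : F × F => z.2 ^ p - z.2 = f.eval z.1).card : ℝ) - Fintype.card F| ≤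
      (p - 1 : ℕ) * ((f.natDegree - 1 : ℕ) * Real.sqrt (Fintype.card F)) := by
  classical
  let _ : Algebra (ZMod p) F := ZMod.algebra F p
  have hp := (Fact.out : p.Prime).one_lt
  obtain ⟨φ, hφ⟩ : ∃ φ : AddChar F ℂ, φ = (ZMod.stdAddChar (N := p)).compAddMonoidHom
      (Algebra.trace (ZMod p) F).toAddMonoidHom := ⟨_, rfl⟩
  have hcount : ∀ w : F, ((univ.filter fun y : F => y ^ p - y = w).card : ℂ) =
      ∑ t : ZMod p, φ (algebraMap (ZMod p) F t * w) := by
    intro w
    simp only [hφ, AddChar.compAddMonoidHom_apply, LinearMap.toAddMonoidHom_coe,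
      ← Algebra.smul_def, map_smul, smul_eq_mul]
    rw [AddChar.sum_mulShift _ (ZMod.isPrimitive_stdAddChar p), ZMod.card]
    split_ifs with hw
    · obtain ⟨z, hz⟩ := (Kloosterman.trace_eq_zero_iff w).1 hw
      refine congrArg Nat.cast (le_antisymm ?_ ?_)
      · have hdeg : ((X : F[X]) + C w).degree < ((p : ℕ) : WithBot ℕ) := by
          rw [degree_X_add_C]; exact_mod_cast hp
        refine (card_le_degree_of_subset_roots (p := X ^ p - (X + C w)) fun y hy => ?_).trans ?_
        · rw [mem_roots (monic_X_pow_sub hdeg).ne_zero]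
          simp [← (mem_filter.1 hy).2]
        · exact natDegree_le_of_degree_le ((degree_sub_le _ _).trans
            (max_le (by rw [degree_X_pow]) hdeg.le))
      · refine le_trans (by simp) (card_le_card_of_injOn (s := (univ : Finset (ZMod p)))
          (fun c => z + ZMod.castHom (dvd_refl p) F c) (fun c _ => ?_)
          fun c _ c' _ h => (ZMod.castHom (dvd_refl p) F).injective (add_left_cancel h))
        rw [mem_coe, mem_filter, add_pow_char, ← map_pow, ZMod.pow_card, add_sub_add_right_eq_sub,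
          hz]
        exact ⟨mem_univ _, rfl⟩
    · rw [card_eq_zero.2 (eq_empty_of_forall_notMem fun y hy =>
        hw ((Kloosterman.trace_eq_zero_iff w).2 ⟨y, (mem_filter.1 hy).2⟩)), Nat.cast_zero]
  have e : ((univ.filter fun z : F × F => z.2 ^ p - z.2 = f.eval z.1).card : ℂ) - Fintype.card F =
      ∑ t ∈ (univ : Finset (ZMod p)).erase 0, ∑ x : F, φ (algebraMap (ZMod p) F t * f.eval x) := by
    rw [card_filter, Fintype.sum_prod_type, Nat.cast_sum]
    simp only [← card_filter]
    rw [sum_congr rfl fun x _ => hcount (f.eval x), sum_comm,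
      ← add_sum_erase _ _ (mem_univ (0 : ZMod p))]
    simp
  rw [← Real.norm_eq_abs, ← Complex.norm_real, Complex.ofReal_sub, Complex.ofReal_natCast,
    Complex.ofReal_natCast, e]
  refine (norm_sum_le_of_le _ fun t ht => ?_).trans (le_of_eq (by
    rw [sum_const, nsmul_eq_mul, card_erase_of_mem (mem_univ _), card_univ, ZMod.card]))
  have ht0 : algebraMap (ZMod p) F t ≠ 0 := (_root_.map_ne_zero _).2 (mem_erase.1 ht).1
  have h1 : φ.mulShift (algebraMap (ZMod p) F t) ≠ 1 := by
    intro h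
    obtain ⟨x, hx⟩ := Algebra.trace_surjective (ZMod p) F 1
    have h1 := DFunLike.congr_fun h ((algebraMap (ZMod p) F t)⁻¹ * x)
    rw [AddChar.mulShift_apply, mul_inv_cancel_left₀ ht0, hφ, AddChar.compAddMonoidHom_apply,
      LinearMap.toAddMonoidHom_coe, hx, AddChar.one_apply] at h1
    exact one_ne_zero (ZMod.injective_stdAddChar (h1.trans (AddChar.map_zero_eq_one _).symm))
  exact norm_sum_addChar_le h1 hm

end FA.AdditiveSums
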