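import Mathlib.RingTheory.AdjoinRoot
import Mathlib.Algebra.Polynomial.Degree.Lemmas
import Mathlib.FieldTheory.Finite.Basic
import Mathlib.LinearAlgebra.Dimension.Constructions
import Mathlib.Tactic

/-!
# Pole orders on the curve `y ^ p - y = h x`

`x ^ i y ^ j`, `j < p`, has weight `i p + j m`, `m = deg h` prime to `p`: the weights are distinct
and every monomial is a nonzero multiple of the standard one of its weight up to smaller weights.
-/

set_option autoImplicit false
set_option linter.unusedSectionVars false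

noncomputable section

namespace FA.AdditiveSums

open Polynomial Finset

variable {K : Type*} [Field K] (p : ℕ) (h : K[X])

/-- `Y ^ p - Y - h`. -/
def curvePoly : K[X][X] := X ^ p - (X + C h)

/-- The coordinate ring of the curve. -/
abbrev CurveRing : Type _ := AdjoinRoot (curvePoly p h)

variable [Fact p.Prime]

theorem degree_X_add_C_lt : ((X : K[X][X]) + C h).degree < (p : WithBot ℕ) := by
  rw [degree_X_add_C]
  exact_mod_cast (Fact.out : p.Prime).one_lt

theorem monic_curvePoly : (curvePoly p h).Monic := monic_X_pow_sub (degree_X_add_C_lt p h)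

theorem natDegree_curvePoly : (curvePoly p h).natDegree = p := by
  refine natDegree_eq_of_degree_eq_some ?_
  rw [curvePoly, degree_sub_eq_left_of_degree_lt (by
    rw [degree_X_pow]; exact degree_X_add_C_lt p h), degree_X_pow]

/-- `x ^ i y ^ n`. -/
def mono (i n : ℕ) : CurveRing p h := AdjoinRoot.mk _ (C (X ^ i) * X ^ n)

/-- The exponent of `y` of weight `w`. -/
def expY (w : ℕ) : ℕ := ((w : ZMod p) * (h.natDegree : ZMod p)⁻¹).val

/-- The exponent of `x` of weight `w`. -/
def expX (w : ℕ) : ℕ := (w - expY p h w * h.natDegree) / p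

/-- The standard monomial of weight `w`. -/
def stdMono (w : ℕ) : CurveRing p h := mono p h (expX p h w) (expY p h w)

/-- `w` is a weight. -/
def IsWeight (w : ℕ) : Prop := expY p h w * h.natDegree ≤ w

/-- The functions of weight `< L`. -/
def weightSpace (L : ℕ) : Submodule K (CurveRing p h) :=
  Submodule.span K ((fun w => stdMono p h w) '' {w | w < L ∧ IsWeight p h w})

theorem mono_mul (i n i' n' : ℕ) :
    mono p h i n * mono p h i' n' = mono p h (i + i') (n + n') := by
  rw [mono, mono, mono, ← map_mul]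
  congr 1
  rw [C_pow, C_pow, C_pow, pow_add, pow_add]
  ring

theorem mono_pow (i n k : ℕ) : mono p h i n ^ k = mono p h (i * k) (n * k) := by
  rw [mono, mono, ← map_pow, mul_pow, ← C_pow, ← pow_mul, ← pow_mul]

theorem expY_lt (w : ℕ) : expY p h w < p := ZMod.val_lt _

theorem weightSpace_mono {L L' : ℕ} (hL : L ≤ L') : weightSpace p h L ≤ weightSpace p h L' :=
  Submodule.span_mono (Set.image_mono fun _ hw => ⟨hw.1.trans_le hL, hw.2⟩)

variable {p h}

theorem expY_modEq (hm : ¬ p ∣ h.natDegree) (w : ℕ) :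
    expY p h w * h.natDegree ≡ w [MOD p] := by
  rw [← ZMod.natCast_eq_natCast_iff, Nat.cast_mul, expY, ZMod.natCast_zmod_val, mul_assoc,
    inv_mul_cancel₀ (by rwa [Ne, ZMod.natCast_eq_zero_iff]), mul_one]

theorem expX_mul_add (hm : ¬ p ∣ h.natDegree) {w : ℕ} (hw : IsWeight p h w) :
    expX p h w * p + expY p h w * h.natDegree = w := by
  rw [expX, Nat.div_mul_cancel ((Nat.modEq_iff_dvd' hw).1 (expY_modEq hm w)),
    Nat.sub_add_cancel hw]

theorem exps_eq (hm : ¬ p ∣ h.natDegree) {i j w : ℕ} (hj : j < p)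
    (hw : i * p + j * h.natDegree = w) :
    IsWeight p h w ∧ expX p h w = i ∧ expY p h w = j := by
  have hY : expY p h w = j := by
    rw [expY, ← hw, Nat.cast_add, Nat.cast_mul, ZMod.natCast_self, mul_zero, zero_add,
      Nat.cast_mul, mul_assoc, mul_inv_cancel₀ (by rwa [Ne, ZMod.natCast_eq_zero_iff]), mul_one,
      ZMod.val_natCast, Nat.mod_eq_of_lt hj]
  refine ⟨by rw [IsWeight, hY]; omega, ?_, hY⟩
  rw [expX, hY, ← hw, Nat.add_sub_cancel, Nat.mul_div_cancel _ (Fact.out : p.Prime).pos]

theorem isWeight_of_le {w : ℕ} (hw : p * h.natDegree ≤ w) : IsWeight p h w :=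
  le_trans (Nat.mul_le_mul_right _ (expY_lt p h w).le) hw

theorem mono_add_self (i n : ℕ) :
    mono p h i (n + p) = mono p h i (n + 1) +
      ∑ t ∈ range (h.natDegree + 1), h.coeff t • mono p h (i + t) n := by
  have key : AdjoinRoot.mk (curvePoly p h) (C (X ^ i) * X ^ (n + p)) =
      AdjoinRoot.mk (curvePoly p h) (C (X ^ i) * X ^ (n + 1) + C (X ^ i * h) * X ^ n) :=
    AdjoinRoot.mk_eq_mk.2 ⟨C (X ^ i) * X ^ n, by rw [curvePoly, C_mul]; ring⟩
  rw [mono, key, map_add, ← mono]
  congr 1
  rw [show C (X ^ i * h) =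
      ∑ t ∈ range (h.natDegree + 1), C (X ^ i * (C (h.coeff t) * X ^ t)) by
    rw [← map_sum, ← mul_sum, ← h.as_sum_range_C_mul_X_pow], sum_mul, map_sum]
  refine sum_congr rfl fun t _ => ?_
  rw [mono, Algebra.smul_def, AdjoinRoot.algebraMap_eq', RingHom.comp_apply,
    AdjoinRoot.of, RingHom.comp_apply, ← map_mul]
  congr 1
  rw [Polynomial.algebraMap_apply, Algebra.algebraMap_self, RingHom.id_apply, pow_add]
  simp only [map_mul]
  ring

/-- **Every monomial reduces to the standard one of its weight.** -/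
theorem mono_reduce (hm : ¬ p ∣ h.natDegree) : ∀ n i : ℕ,
    IsWeight p h (i * p + n * h.natDegree) ∧ ∃ c : K, c ≠ 0 ∧
      mono p h i n - c • stdMono p h (i * p + n * h.natDegree) ∈
        weightSpace p h (i * p + n * h.natDegree) := by
  have hp := (Fact.out : p.Prime).two_le
  have hm0 : 1 ≤ h.natDegree := Nat.one_le_iff_ne_zero.2 fun e => hm (e ▸ dvd_zero p)
  intro n
  induction n using Nat.strong_induction_on with
  | _ n ih =>
    intro i
    rcases lt_or_ge n p with hn | hn
    · obtain ⟨h1, h2, h3⟩ := exps_eq hm hn (rfl : i * p + n * h.natDegree = _)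
      exact ⟨h1, 1, one_ne_zero, by rw [one_smul, stdMono, h2, h3, sub_self]; exact zero_mem _⟩
    obtain ⟨n, rfl⟩ : ∃ n', n = n' + p := ⟨n - p, by omega⟩
    obtain ⟨W, hW⟩ : ∃ W, W = i * p + (n + p) * h.natDegree := ⟨_, rfl⟩
    have e : (i + h.natDegree) * p + n * h.natDegree = W := by rw [hW]; ring
    obtain ⟨hwt, c, hc, hmem⟩ := ih n (by omega) (i + h.natDegree)
    rw [e] at hwt hmem
    rw [← hW]
    refine ⟨hwt, h.leadingCoeff * c, mul_ne_zero (leadingCoeff_ne_zero.2 fun e0 => by
      rw [e0, natDegree_zero] at hm0; omega) hc, ?_⟩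
    have hlow : ∀ n' i', n' < n + p → i' * p + n' * h.natDegree < W →
        mono p h i' n' ∈ weightSpace p h W := by
      intro n' i' hn' hlt
      obtain ⟨hwt', c', -, hmem'⟩ := ih n' hn' i'
      rw [← sub_add_cancel (mono p h i' n') (c' • stdMono p h (i' * p + n' * h.natDegree))]
      exact add_mem (weightSpace_mono p h hlt.le hmem')
        (Submodule.smul_mem _ _ (Submodule.subset_span ⟨_, ⟨hlt, hwt'⟩, rfl⟩))
    rw [mono_add_self, sum_range_succ, add_sub_assoc]
    refine add_mem (hlow _ _ (by omega) ?_) ?_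
    · rw [hW, add_mul, add_mul]
      have := Nat.mul_lt_mul_of_lt_of_le (show 1 < p by omega) (le_refl h.natDegree) (by omega)
      omega
    rw [add_sub_assoc]
    refine add_mem (sum_mem fun t ht => Submodule.smul_mem _ _ (hlow _ _ (by omega) ?_)) ?_
    · rw [mem_range] at ht
      rw [← e, add_mul, add_mul i h.natDegree]
      have := Nat.mul_lt_mul_of_lt_of_le ht (le_refl p) (by omega)
      omega
    · rw [← leadingCoeff, mul_smul, ← smul_sub]
      exact Submodule.smul_mem _ _ hmem

theorem mono_mem (hm : ¬ p ∣ h.natDegree) (i n : ℕ) {L : ℕ} (hL : i * p + n * h.natDegree < L) :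
    mono p h i n ∈ weightSpace p h L := by
  obtain ⟨hwt, c, -, hmem⟩ := mono_reduce hm n i
  rw [← sub_add_cancel (mono p h i n) (c • stdMono p h (i * p + n * h.natDegree))]
  exact add_mem (weightSpace_mono p h hL.le hmem)
    (Submodule.smul_mem _ _ (Submodule.subset_span ⟨_, ⟨hL, hwt⟩, rfl⟩))

theorem finrank_weightSpace_le (L : ℕ) :
    Module.finrank K (weightSpace p h L) ≤ L := by
  classical
  rw [weightSpace, show {w | w < L ∧ IsWeight p h w} =
    (((range L).filter fun w => IsWeight p h w : Finset ℕ) : Set ℕ) by ext w; simp, ← coe_image]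
  exact (finrank_span_finset_le_card _).trans
    (card_image_le.trans ((card_filter_le _ _).trans (by simp)))

variable (p h) in
/-- The coefficient of the standard monomial of weight `w`. -/
def weightCoeff (w : ℕ) : CurveRing p h →ₗ[K] K :=
  (lcoeff K (expX p h w)).comp (((lcoeff K[X] (expY p h w)).comp
    (AdjoinRoot.modByMonicHom (monic_curvePoly p h))).restrictScalars K)

theorem modByMonicHom_mono (i : ℕ) {j : ℕ} (hj : j < p) :
    AdjoinRoot.modByMonicHom (monic_curvePoly p h) (mono p h i j) = C (X ^ i) * X ^ j := by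
  rw [mono, AdjoinRoot.modByMonicHom_mk, modByMonic_eq_self_iff (monic_curvePoly p h),
    degree_eq_natDegree (monic_curvePoly p h).ne_zero, natDegree_curvePoly]
  exact (degree_C_mul_X_pow_le _ _).trans_lt (Nat.cast_lt.2 hj)

theorem weightCoeff_stdMono (hm : ¬ p ∣ h.natDegree) {w w' : ℕ} (hw : IsWeight p h w)
    (hw' : IsWeight p h w') :
    weightCoeff p h w (stdMono p h w') = if w = w' then 1 else 0 := by
  simp only [weightCoeff, LinearMap.coe_comp, LinearMap.coe_restrictScalars, Function.comp_apply,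
    lcoeff_apply, stdMono, modByMonicHom_mono _ (expY_lt p h w'), coeff_C_mul_X_pow]
  rcases eq_or_ne (expY p h w) (expY p h w') with e | e
  · rw [if_pos e, coeff_X_pow]
    refine if_congr ⟨fun e' => ?_, fun e' => by rw [e']⟩ rfl rfl
    rw [← expX_mul_add hm hw, ← expX_mul_add hm hw', e, e']
  · rw [if_neg e, coeff_zero, if_neg fun e' => e (by rw [e'])]

theorem weightCoeff_eq_zero (hm : ¬ p ∣ h.natDegree) {w L : ℕ} (hw : IsWeight p h w) (hL : L ≤ w)
    {z : CurveRing p h} (hz : z ∈ weightSpace p h L) : weightCoeff p h w z = 0 := by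
  induction hz using Submodule.span_induction with
  | mem x hx =>
    obtain ⟨w', ⟨hlt, hw'⟩, rfl⟩ := hx
    rw [weightCoeff_stdMono hm hw hw', if_neg (by omega)]
  | zero => exact map_zero _
  | add x y _ _ hx hy => rw [map_add, hx, hy, add_zero]
  | smul a x _ hx => rw [map_smul, hx, smul_zero]

theorem natDegree_coeff_mul_lt (hm : ¬ p ∣ h.natDegree) {L : ℕ} {z : CurveRing p h}
    (hz : z ∈ weightSpace p h L) (j : ℕ) :
    (AdjoinRoot.modByMonicHom (monic_curvePoly p h) z).coeff j = 0 ∨
      ((AdjoinRoot.modByMonicHom (monic_curvePoly p h) z).coeff j).natDegree * p < L := by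
  induction hz using Submodule.span_induction with
  | mem x hx =>
    obtain ⟨w', ⟨hlt, hw'⟩, rfl⟩ := hx
    simp only [stdMono]
    rw [modByMonicHom_mono _ (expY_lt p h w'), coeff_C_mul_X_pow]
    split_ifs with e
    · right
      rw [natDegree_X_pow]
      have := expX_mul_add hm hw'
      omega
    · exact Or.inl rfl
  | zero => left; simp
  | add x y _ _ hx hy =>
    rw [map_add, coeff_add]
    rcases hx with hx | hx
    · rwa [hx, zero_add]
    rcases hy with hy | hy
    · rw [hy, add_zero]; exact Or.inr hx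
    refine Or.inr (lt_of_le_of_lt (Nat.mul_le_mul_right _ (natDegree_add_le _ _)) ?_)
    rcases le_total ((AdjoinRoot.modByMonicHom (monic_curvePoly p h) x).coeff j).natDegree
      ((AdjoinRoot.modByMonicHom (monic_curvePoly p h) y).coeff j).natDegree with hle | hle
    · rwa [max_eq_right hle]
    · rwa [max_eq_left hle]
  | smul a x _ hx =>
    rw [← algebraMap_smul K[X] a x, map_smul, coeff_smul, smul_eq_mul]
    rcases hx with hx | hx
    · left; rw [hx, mul_zero]
    · right
      refine lt_of_le_of_lt (Nat.mul_le_mul_right _ ?_) hx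
      rw [Polynomial.algebraMap_apply]
      exact natDegree_C_mul_le _ _

end FA.AdditiveSums
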